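import Mathlib
import Fermat.Prelude.Def_ModularCurve_PeriodHomPair

/-!
# P-LR (S41, level raising): the two degeneracy homomorphisms `Γ₀(N q) → Γ₀(N)` and the
pull-back / push-forward (transfer) of homomorphisms (helper63)

* `incl N q : Γ₀(N q) →* Γ₀(N)` is the inclusion;
* `conjD N q : Γ₀(N q) →* Γ₀(N)` is `γ ↦ δ γ δ⁻¹`, `δ = diag(q, 1)`:
  `[[a, b], [c, d]] ↦ [[a, q b], [c / q, d]]`;
* `pullHom j A : Hom(Γ, A) → Hom(Γ', A)` is composition with `j : Γ' →* Γ`;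
* `pushHom j A : Hom(Γ', A) → Hom(Γ, A)` is the transfer (corestriction) along an injective
  `j` with range of finite index (and `0` otherwise).
-/

set_option autoImplicit false

open CongruenceSubgroup Matrix.SpecialLinearGroup
open scoped MatrixGroups

namespace Fermat.Agent.H63.LR

/-- The inclusion `Γ₀(N q) → Γ₀(N)`. -/
def incl (N q : ℕ) : Gamma0 (N * q) →* Gamma0 N :=
  Subgroup.inclusion (by
    intro γ hγ
    rw [Gamma0_mem] at hγ ⊢
    have h1 : ((N * q : ℕ) : ℤ) ∣ (γ : Matrix (Fin 2) (Fin 2) ℤ) 1 0 :=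
      (ZMod.intCast_zmod_eq_zero_iff_dvd _ _).mp hγ
    exact (ZMod.intCast_zmod_eq_zero_iff_dvd _ _).mpr
      (dvd_trans (by push_cast; exact Dvd.intro _ rfl) h1))

@[simp] theorem incl_coe (N q : ℕ) (γ : Gamma0 (N * q)) :
    ((incl N q γ : Gamma0 N) : SL(2, ℤ)) = (γ : SL(2, ℤ)) := rfl

theorem incl_injective (N q : ℕ) : Function.Injective (incl N q) :=
  Subgroup.inclusion_injective _

/-- The matrix `[[a, q b], [c / q, d]]`. -/
def conjDMat (q : ℕ) (M : Matrix (Fin 2) (Fin 2) ℤ) : Matrix (Fin 2) (Fin 2) ℤ :=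
  !![M 0 0, q * M 0 1; M 1 0 / q, M 1 1]

theorem conjDMat_det {q : ℕ} {M : Matrix (Fin 2) (Fin 2) ℤ} (h : (q : ℤ) ∣ M 1 0) :
    (conjDMat q M).det = M.det := by
  obtain ⟨c, hc⟩ := h
  rw [conjDMat, Matrix.det_fin_two_of, Matrix.det_fin_two, hc]
  rcases Nat.eq_zero_or_pos q with hq | hq
  · subst hq; simp
  · have hq' : (q : ℤ) ≠ 0 := by exact_mod_cast hq.ne'
    rw [Int.mul_ediv_cancel_left _ hq']
    ring

theorem conjDMat_mul {q : ℕ} {M M' : Matrix (Fin 2) (Fin 2) ℤ} (h : (q : ℤ) ∣ M 1 0)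
    (h' : (q : ℤ) ∣ M' 1 0) : conjDMat q (M * M') = conjDMat q M * conjDMat q M' := by
  obtain ⟨c, hc⟩ := h
  obtain ⟨c', hc'⟩ := h'
  rcases Nat.eq_zero_or_pos q with hq | hq
  · subst hq
    simp only [Nat.cast_zero, zero_mul] at hc hc'
    ext i j
    fin_cases i <;> fin_cases j <;>
      simp [conjDMat, Matrix.mul_apply, Fin.sum_univ_two, hc, hc']
  · have hq' : (q : ℤ) ≠ 0 := by exact_mod_cast hq.ne'
    have e1 : (M * M') 1 0 = q * (c * M' 0 0 + M 1 1 * c') := by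
      rw [Matrix.mul_apply, Fin.sum_univ_two, hc, hc']; ring
    have d1 : (M * M') 1 0 / q = c * M' 0 0 + M 1 1 * c' := by
      rw [e1, Int.mul_ediv_cancel_left _ hq']
    have d2 : M 1 0 / q = c := by rw [hc, Int.mul_ediv_cancel_left _ hq']
    have d3 : M' 1 0 / q = c' := by rw [hc', Int.mul_ediv_cancel_left _ hq']
    have m00 : (M * M') 0 0 = M 0 0 * M' 0 0 + M 0 1 * M' 1 0 := by
      rw [Matrix.mul_apply, Fin.sum_univ_two]
    have m01 : (M * M') 0 1 = M 0 0 * M' 0 1 + M 0 1 * M' 1 1 := by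
      rw [Matrix.mul_apply, Fin.sum_univ_two]
    have m11 : (M * M') 1 1 = M 1 0 * M' 0 1 + M 1 1 * M' 1 1 := by
      rw [Matrix.mul_apply, Fin.sum_univ_two]
    have key : conjDMat q M * conjDMat q M' =
        !![M 0 0 * M' 0 0 + q * M 0 1 * c', M 0 0 * (q * M' 0 1) + q * M 0 1 * M' 1 1;
           c * M' 0 0 + M 1 1 * c', c * (q * M' 0 1) + M 1 1 * M' 1 1] := by
      unfold conjDMat
      rw [d2, d3]
      ext i j
      fin_cases i <;> fin_cases j <;> simp [Matrix.mul_apply, Fin.sum_univ_two]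
    rw [key]
    unfold conjDMat
    rw [d1, m00, m01, m11, hc, hc']
    ext i j
    fin_cases i <;> fin_cases j <;> simp <;> ring

theorem dvd_of_mem_Gamma0_mul {N q : ℕ} {γ : SL(2, ℤ)} (hγ : γ ∈ Gamma0 (N * q)) :
    ((N : ℤ) * q) ∣ (γ : Matrix (Fin 2) (Fin 2) ℤ) 1 0 := by
  have := (ZMod.intCast_zmod_eq_zero_iff_dvd _ _).mp (Gamma0_mem.mp hγ)
  simpa using this

theorem q_dvd_of_mem_Gamma0_mul {N q : ℕ} {γ : SL(2, ℤ)} (hγ : γ ∈ Gamma0 (N * q)) :
    (q : ℤ) ∣ (γ : Matrix (Fin 2) (Fin 2) ℤ) 1 0 :=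
  dvd_trans (Dvd.intro_left _ rfl) (dvd_of_mem_Gamma0_mul hγ)

/-- `γ ↦ δ γ δ⁻¹` on `SL₂(ℤ)`-matrices with `q ∣ c`, as an element of `SL₂(ℤ)`. -/
def conjDSL (N q : ℕ) (γ : Gamma0 (N * q)) : SL(2, ℤ) :=
  ⟨conjDMat q ((γ : SL(2, ℤ)) : Matrix (Fin 2) (Fin 2) ℤ), by
    rw [conjDMat_det (q_dvd_of_mem_Gamma0_mul γ.2)]; exact (γ : SL(2, ℤ)).2⟩

theorem conjDSL_mem (N q : ℕ) (γ : Gamma0 (N * q)) : conjDSL N q γ ∈ Gamma0 N := by
  rw [Gamma0_mem]
  obtain ⟨c, hc⟩ := dvd_of_mem_Gamma0_mul γ.2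
  show (((conjDMat q ((γ : SL(2, ℤ)) : Matrix (Fin 2) (Fin 2) ℤ)) 1 0 : ℤ) : ZMod N) = 0
  simp only [conjDMat, Matrix.of_apply, Matrix.cons_val', Matrix.cons_val_zero,
    Matrix.cons_val_one, Matrix.cons_val_fin_one]
  rw [hc]
  rcases Nat.eq_zero_or_pos q with hq | hq
  · subst hq; simp
  · have hq' : (q : ℤ) ≠ 0 := by exact_mod_cast hq.ne'
    rw [show (N : ℤ) * q * c = q * (N * c) by ring, Int.mul_ediv_cancel_left _ hq']
    push_cast
    simp

/-- The second degeneracy homomorphism `Γ₀(N q) → Γ₀(N)`, `γ ↦ δ γ δ⁻¹`, `δ = diag(q, 1)`. -/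
def conjD (N q : ℕ) : Gamma0 (N * q) →* Gamma0 N where
  toFun γ := ⟨conjDSL N q γ, conjDSL_mem N q γ⟩
  map_one' := by
    apply Subtype.ext
    apply Subtype.ext
    show conjDMat q ((1 : SL(2, ℤ)) : Matrix (Fin 2) (Fin 2) ℤ) = 1
    ext i j
    fin_cases i <;> fin_cases j <;> simp [conjDMat]
  map_mul' γ γ' := by
    apply Subtype.ext
    apply Subtype.ext
    show conjDMat q (((γ * γ' : Gamma0 (N * q)) : SL(2, ℤ)) : Matrix (Fin 2) (Fin 2) ℤ)
      = conjDMat q _ * conjDMat q _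
    rw [Subgroup.coe_mul, Matrix.SpecialLinearGroup.coe_mul]
    exact conjDMat_mul (q_dvd_of_mem_Gamma0_mul γ.2) (q_dvd_of_mem_Gamma0_mul γ'.2)

theorem conjD_coe (N q : ℕ) (γ : Gamma0 (N * q)) :
    (((conjD N q γ : Gamma0 N) : SL(2, ℤ)) : Matrix (Fin 2) (Fin 2) ℤ)
      = conjDMat q ((γ : SL(2, ℤ)) : Matrix (Fin 2) (Fin 2) ℤ) := rfl

section PullPush

variable {Γ Γ' : Type*} [Group Γ] [Group Γ']

/-- Pull-back of homomorphisms along `j : Γ' →* Γ`. -/
def pullHom (j : Γ' →* Γ) (A : Type*) [AddCommGroup A] (φ : Additive Γ →+ A) :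
    Additive Γ' →+ A :=
  φ.comp (MonoidHom.toAdditive j)

@[simp] theorem pullHom_apply (j : Γ' →* Γ) (A : Type*) [AddCommGroup A] (φ : Additive Γ →+ A)
    (γ : Γ') : pullHom j A φ (Additive.ofMul γ) = φ (Additive.ofMul (j γ)) := rfl

/-- The homomorphism on the range of an injective `j` corresponding to `ψ`. -/
noncomputable def onRange (j : Γ' →* Γ) (hj : Function.Injective j) (A : Type*) [AddCommGroup A]
    (ψ : Additive Γ' →+ A) : j.range →* Multiplicative A :=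
  (AddMonoidHom.toMultiplicativeRight ψ).comp (MonoidHom.ofInjective hj).symm.toMonoidHom

/-- Push-forward (transfer, corestriction) of homomorphisms along an injective `j : Γ' →* Γ`
whose range has finite index; `0` if `j` is not injective or the index is infinite. -/
noncomputable def pushHom (j : Γ' →* Γ) (A : Type*) [AddCommGroup A] (ψ : Additive Γ' →+ A) :
    Additive Γ →+ A :=
  open scoped Classical in
  if h : Function.Injective j ∧ j.range.FiniteIndex then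
    haveI := h.2
    MonoidHom.toAdditiveLeft (MonoidHom.transfer (onRange j h.1 A ψ))
  else 0

end PullPush

end Fermat.Agent.H63.LR
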