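import Fermat.Agent.H63.LR.Maps
import Fermat.Agent.H63.S16LB.Interfaces
import Fermat.Agent.H21.Coh.Hecke
import Fermat.Prelude.Def_FLTPrelim_ModularRep
import Fermat.Prelude.Def_FreyPackage_LevelRaising

/-!
# P-LR (S41, level raising): interfaces (helper63, architect)

Notation: `Γ = Γ₀(N)`, `Γ' = Γ₀(N q)`, `q` prime, `q ∤ N`, `δ = diag(q, 1)`.

* `alphaMap (φ₁, φ₂) = res φ₁ + res (φ₂ ∘ conj_δ)`  (`Hom(Γ, A)² → Hom(Γ', A)`),
* `betaMap ψ = (cores ψ, cores (ψ ∘ conj_δ⁻¹))`      (`Hom(Γ', A) → Hom(Γ, A)²`).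

All statements below are `Prop`-valued definitions.  Blocks:

* LR-A  (correspondence calculus): `PushFormulaStatement`, `IndexStatement`,
  `BetaAlphaStatement`, `HeckeCompatStatement`, `UqStatement`, `PEPreservedStatement`;
* LR-I  (Ihara): `IharaStatement`;
* LR-D  (duality): `DualityStatement`;
* LR-E  (the mod `p` system of `E` is not Eisenstein): `NonEisStatement`;
* LR-ALG (commutative algebra): `LRAlgStatement`.
-/

set_option autoImplicit false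

open CongruenceSubgroup Matrix.SpecialLinearGroup
open WeierstrassCurve WeierstrassCurve.Affine WeierstrassCurve.Affine.Point
open scoped MatrixGroups

namespace Fermat.Agent.H63.LR

open Fermat.Agent.H63 Fermat.Agent.H21

/-- Parabolic and elliptic-trivial homomorphisms `Γ₀(M) → A`. -/
def IsPE (M : ℕ) {A : Type*} [AddCommGroup A] (φ : Additive (Gamma0 M) →+ A) : Prop :=
  ModularCurve.Period.IsParabolicHom (Gamma0 M) φ ∧ KillsEll M φ

/-- `α (φ₁, φ₂) = res φ₁ + res (φ₂ ∘ conj_δ)`. -/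
def alphaMap (N q : ℕ) (A : Type*) [AddCommGroup A]
    (φ : (Additive (Gamma0 N) →+ A) × (Additive (Gamma0 N) →+ A)) :
    Additive (Gamma0 (N * q)) →+ A :=
  pullHom (incl N q) A φ.1 + pullHom (conjD N q) A φ.2

/-- `β ψ = (cores ψ, cores (ψ ∘ conj_δ⁻¹))`. -/
noncomputable def betaMap (N q : ℕ) (A : Type*) [AddCommGroup A]
    (ψ : Additive (Gamma0 (N * q)) →+ A) :
    (Additive (Gamma0 N) →+ A) × (Additive (Gamma0 N) →+ A) :=
  (pushHom (incl N q) A ψ, pushHom (conjD N q) A ψ)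

/-! ## LR-A : correspondence calculus -/

/-- **LR-A0** (Mathlib only). The transfer in terms of a right transversal `g` of the range of
`j` and rewriting data `g x * γ = j (κ x) * g (σ x)`; additivity in `ψ`. -/
def PushFormulaStatement : Prop :=
  ∀ (Γ Γ' : Type) [Group Γ] [Group Γ'] (j : Γ' →* Γ), Function.Injective j →
    j.range.FiniteIndex → ∀ (A : Type) [AddCommGroup A],
    (∀ ψ ψ' : Additive Γ' →+ A, pushHom j A (ψ + ψ') = pushHom j A ψ + pushHom j A ψ') ∧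
    ∀ (X : Type) [Fintype X] (g : X → Γ),
      (∀ γ : Γ, ∃! x : X, ∃ κ : Γ', γ = j κ * g x) →
      ∀ (ψ : Additive Γ' →+ A) (γ : Γ) (σ : X → X) (κ : X → Γ'),
        (∀ x, g x * γ = j (κ x) * g (σ x)) →
        pushHom j A ψ (Additive.ofMul γ) = ∑ x, ψ (Additive.ofMul (κ x))

/-- **LR-A1.** `conj_δ` is injective, and both `Γ₀(N q)` and `δ Γ₀(N q) δ⁻¹ = Γ₀(N) ∩ Γ⁰(q)`
have index `q + 1` in `Γ₀(N)`. -/
def IndexStatement (N q : ℕ) : Prop :=
  q.Prime → ¬ q ∣ N → 0 < N →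
    Function.Injective (conjD N q) ∧ (incl N q).range.index = q + 1 ∧
      (conjD N q).range.index = q + 1

/-- **LR-A2.** `β ∘ α = [[q + 1, T_q], [T_q, q + 1]]`. -/
def BetaAlphaStatement (N q : ℕ) : Prop :=
  ∀ (hq : q.Prime) (hqN : ¬ q ∣ N), 0 < N →
    ∀ (A : Type) [AddCommGroup A] (φ : Additive (Gamma0 N) →+ A),
      pushHom (incl N q) A (pullHom (incl N q) A φ) = (q + 1) • φ ∧
      pushHom (conjD N q) A (pullHom (conjD N q) A φ) = (q + 1) • φ ∧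
      pushHom (incl N q) A (pullHom (conjD N q) A φ) = cohT N q hq hqN A φ ∧
      pushHom (conjD N q) A (pullHom (incl N q) A φ) = cohT N q hq hqN A φ

/-- **LR-A3.** `α` and `β` commute with `T_ℓ` (`ℓ ∤ N q`), and `β` commutes with `U_r`
(`r ∣ N`). -/
def HeckeCompatStatement (N q : ℕ) [NeZero N] [NeZero (N * q)] : Prop :=
  q.Prime → ¬ q ∣ N →
    ∀ (A : Type) [AddCommGroup A],
      (∀ (ℓ : ℕ) (hℓ : ℓ.Prime) (hℓN : ¬ ℓ ∣ N) (hℓNq : ¬ ℓ ∣ N * q)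
          (φ : Additive (Gamma0 N) →+ A) (ψ : Additive (Gamma0 (N * q)) →+ A),
        pullHom (incl N q) A (cohT N ℓ hℓ hℓN A φ)
            = cohT (N * q) ℓ hℓ hℓNq A (pullHom (incl N q) A φ) ∧
        pullHom (conjD N q) A (cohT N ℓ hℓ hℓN A φ)
            = cohT (N * q) ℓ hℓ hℓNq A (pullHom (conjD N q) A φ) ∧
        pushHom (incl N q) A (cohT (N * q) ℓ hℓ hℓNq A ψ)
            = cohT N ℓ hℓ hℓN A (pushHom (incl N q) A ψ) ∧
        pushHom (conjD N q) A (cohT (N * q) ℓ hℓ hℓNq A ψ)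
            = cohT N ℓ hℓ hℓN A (pushHom (conjD N q) A ψ)) ∧
      (∀ (r : ℕ) (_ : r.Prime) (hrN : r ∣ N) (hrNq : r ∣ N * q)
          (ψ : Additive (Gamma0 (N * q)) →+ A),
        pushHom (incl N q) A (cohU (N * q) r hrNq A ψ)
            = cohU N r hrN A (pushHom (incl N q) A ψ) ∧
        pushHom (conjD N q) A (cohU (N * q) r hrNq A ψ)
            = cohU N r hrN A (pushHom (conjD N q) A ψ))

/-- **LR-A4.** On `ker β` the operator `U_q` is an involution preserving `ker β`. -/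
def UqStatement (N q : ℕ) [NeZero (N * q)] : Prop :=
  q.Prime → ¬ q ∣ N → 0 < N →
    ∀ (A : Type) [AddCommGroup A] (ψ : Additive (Gamma0 (N * q)) →+ A),
      pushHom (incl N q) A ψ = 0 → pushHom (conjD N q) A ψ = 0 →
        pushHom (incl N q) A (cohU (N * q) q (Dvd.intro_left N rfl) A ψ) = 0 ∧
        pushHom (conjD N q) A (cohU (N * q) q (Dvd.intro_left N rfl) A ψ) = 0 ∧
        cohU (N * q) q (Dvd.intro_left N rfl) A
          (cohU (N * q) q (Dvd.intro_left N rfl) A ψ) = ψ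

/-- **LR-A5.** Pull-back and push-forward preserve parabolic classes and elliptic-trivial
classes. -/
def PEPreservedStatement (N q : ℕ) : Prop :=
  q.Prime → ¬ q ∣ N → 0 < N →
    ∀ (A : Type) [AddCommGroup A],
      (∀ φ : Additive (Gamma0 N) →+ A, ModularCurve.Period.IsParabolicHom (Gamma0 N) φ →
        ModularCurve.Period.IsParabolicHom (Gamma0 (N * q)) (pullHom (incl N q) A φ) ∧
        ModularCurve.Period.IsParabolicHom (Gamma0 (N * q)) (pullHom (conjD N q) A φ)) ∧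
      (∀ φ : Additive (Gamma0 N) →+ A, KillsEll N φ →
        KillsEll (N * q) (pullHom (incl N q) A φ) ∧
        KillsEll (N * q) (pullHom (conjD N q) A φ)) ∧
      (∀ ψ : Additive (Gamma0 (N * q)) →+ A,
        ModularCurve.Period.IsParabolicHom (Gamma0 (N * q)) ψ →
        ModularCurve.Period.IsParabolicHom (Gamma0 N) (pushHom (incl N q) A ψ) ∧
        ModularCurve.Period.IsParabolicHom (Gamma0 N) (pushHom (conjD N q) A ψ)) ∧
      (∀ ψ : Additive (Gamma0 (N * q)) →+ A, IsPE (N * q) ψ →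
        KillsEll N (pushHom (incl N q) A ψ) ∧ KillsEll N (pushHom (conjD N q) A ψ))

/-! ## LR-I : Ihara's lemma -/

/-- **LR-I (Ihara).** The kernel of `α` on parabolic classes mod `p` is Eisenstein:
`T_ℓ = 1 + ℓ` on it for every prime `ℓ ∤ N q`. -/
def IharaStatement (N q p : ℕ) : Prop :=
  q.Prime → ¬ q ∣ N → 0 < N → p.Prime → p ≠ 2 → p ≠ q →
    ∀ φ₁ φ₂ : Additive (Gamma0 N) →+ ZMod p, IsPE N φ₁ → IsPE N φ₂ →
      alphaMap N q (ZMod p) (φ₁, φ₂) = 0 →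
      ∀ (ℓ : ℕ) (hℓ : ℓ.Prime) (hℓN : ¬ ℓ ∣ N), ¬ ℓ ∣ N * q →
        cohT N ℓ hℓ hℓN (ZMod p) φ₁ = ((1 + ℓ : ℕ) : ZMod p) • φ₁ ∧
        cohT N ℓ hℓ hℓN (ZMod p) φ₂ = ((1 + ℓ : ℕ) : ZMod p) • φ₂

/-! ## LR-D : duality -/

/-- **LR-D (duality).** A family of alternating, non-degenerate pairings on the parabolic,
elliptic-trivial classes mod `p` of all levels, for which pull-back and push-forward along the
two degeneracy homomorphisms are adjoint. -/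
def DualityStatement (p : ℕ) : Prop :=
  p.Prime → p ≠ 2 →
    ∃ B : ∀ M : ℕ, (Additive (Gamma0 M) →+ ZMod p) → (Additive (Gamma0 M) →+ ZMod p) → ZMod p,
      (∀ (M : ℕ) (x x' y : Additive (Gamma0 M) →+ ZMod p), IsPE M x → IsPE M x' → IsPE M y →
        B M (x + x') y = B M x y + B M x' y) ∧
      (∀ (M : ℕ) (x y : Additive (Gamma0 M) →+ ZMod p), IsPE M x → IsPE M y →
        B M x y = - B M y x) ∧
      (∀ (M : ℕ), 0 < M → ∀ x : Additive (Gamma0 M) →+ ZMod p, IsPE M x → x ≠ 0 →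
        ∃ y : Additive (Gamma0 M) →+ ZMod p, IsPE M y ∧ B M x y ≠ 0) ∧
      (∀ (M ℓ : ℕ), 0 < M → ℓ.Prime → ¬ ℓ ∣ M →
        ∀ (x : Additive (Gamma0 M) →+ ZMod p) (y : Additive (Gamma0 (M * ℓ)) →+ ZMod p),
          IsPE M x → IsPE (M * ℓ) y →
          B (M * ℓ) (pullHom (incl M ℓ) (ZMod p) x) y = B M x (pushHom (incl M ℓ) (ZMod p) y) ∧
          B (M * ℓ) (pullHom (conjD M ℓ) (ZMod p) x) y
            = B M x (pushHom (conjD M ℓ) (ZMod p) y))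

/-! ## LR-E : the residual system of an irreducible `E[p]` is not Eisenstein -/

/-- **LR-E.** If `E[p]` is irreducible (`p` odd), then outside any finite set of primes there is
a prime `ℓ` of good reduction with `a_ℓ(E) ≢ 1 + ℓ mod p`. -/
def NonEisStatement : Prop :=
  ∀ (E : WeierstrassCurve ℚ) [E.IsElliptic] (W : WeierstrassCurve ℤ), W.IsIntegralModelOf E →
    ∀ p : ℕ, p.Prime → p ≠ 2 →
      GaloisRepIsIrreducible (K := AlgebraicClosure ℚ) ℚ E p →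
      ∀ S : Finset ℕ, ∃ ℓ : ℕ, ℓ.Prime ∧ ℓ ∉ S ∧ W.IsGoodPrimeFor ℓ ∧
        ¬ (p : ℤ) ∣ W.apOfModel ℓ - (1 + (ℓ : ℤ))

/-! ## LR-ALG : commutative algebra -/

/-- **LR-ALG.** `X`, `Y` finitely generated abelian groups with an action of a commutative ring
`𝕋`; `𝔪` a maximal ideal containing `p`; `β ∘ α = [[a, t], [t, a]]`.  If the kernel of `α mod p`
and the cokernel of `β mod p` vanish at `𝔪` and `a - ε t` is not surjective at `𝔪`
(`ε = ± 1`), then `ker β` is supported at `𝔪`. -/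
def LRAlgStatement : Prop :=
  ∀ (𝕋 : Type) [CommRing 𝕋] (𝔪 : Ideal 𝕋), 𝔪.IsMaximal → ∀ (p : ℕ), p.Prime → (p : 𝕋) ∈ 𝔪 →
    ∀ (X Y : Type) [AddCommGroup X] [AddCommGroup Y] [Module 𝕋 X] [Module 𝕋 Y]
      [Module.Finite ℤ X] [Module.Finite ℤ Y]
      (a : ℤ) (t : X →ₗ[𝕋] X) (α : X × X →ₗ[𝕋] Y) (β : Y →ₗ[𝕋] X × X),
      (∀ x y : X, β (α (x, y)) = (a • x + t y, t x + a • y)) →
      (∀ w : X × X, (∃ y : Y, α w = (p : ℤ) • y) →
        ∃ s : 𝕋, s ∉ 𝔪 ∧ ∃ w' : X × X, s • w = (p : ℤ) • w') →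
      (∀ w : X × X, ∃ s : 𝕋, s ∉ 𝔪 ∧ ∃ (y : Y) (w' : X × X), s • w = β y + (p : ℤ) • w') →
      (∃ ε : ℤ, (ε = 1 ∨ ε = -1) ∧
        ∀ s : 𝕋, s ∉ 𝔪 → ∃ x : X, ∀ x' : X, s • x ≠ a • x' - ε • t x') →
      ∀ s : 𝕋, s ∉ 𝔪 → ∃ y : Y, β y = 0 ∧ s • y ≠ 0

/-! ## The target -/

/-- The statement S41 (level raising), verbatim. -/
def S41Statement : Prop :=
  ∀ (E : WeierstrassCurve ℚ) [E.IsElliptic] {W : WeierstrassCurve ℤ} (_ : W.IsIntegralModelOf E)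
    {p N q' : ℕ} (_ : p.Prime) (_ : p ≠ 2) (_ : 0 < N) (_ : q'.Prime) (_ : ¬ q' ∣ N)
    (_ : q' ≠ p)
    (_ : GaloisRepIsIrreducible (K := AlgebraicClosure ℚ) ℚ E p)
    (f : CuspForm (CongruenceSubgroup.Gamma0 N) 2) (𝔪 : Ideal (integralClosure ℤ ℂ))
    (_ : f.IsNormalizedEigenform) (_ : 𝔪.IsMaximal) (_ : (p : integralClosure ℤ ℂ) ∈ 𝔪)
    (_ : ∀ ℓ : ℕ, ℓ.Prime → W.IsGoodPrimeFor ℓ → ¬ ℓ ∣ N → ℓ ≠ p →
      ∃ a : integralClosure ℤ ℂ, (a : ℂ) = ModularFormClass.qCoeff f ℓ ∧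
        a - ((W.apOfModel ℓ : ℤ) : integralClosure ℤ ℂ) ∈ 𝔪)
    (_ : ∃ a : integralClosure ℤ ℂ, (a : ℂ) = ModularFormClass.qCoeff f q' ∧
      a ^ 2 - ((q' : integralClosure ℤ ℂ) + 1) ^ 2 ∈ 𝔪),
    ∃ (g : CuspForm (CongruenceSubgroup.Gamma0 (N * q')) 2) (𝔪' : Ideal (integralClosure ℤ ℂ)),
      g.IsNormalizedEigenform ∧ 𝔪'.IsMaximal ∧ (p : integralClosure ℤ ℂ) ∈ 𝔪' ∧
      (∀ ℓ : ℕ, ℓ.Prime → W.IsGoodPrimeFor ℓ → ¬ ℓ ∣ N * q' → ℓ ≠ p →
        ∃ a : integralClosure ℤ ℂ, (a : ℂ) = ModularFormClass.qCoeff g ℓ ∧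
          a - ((W.apOfModel ℓ : ℤ) : integralClosure ℤ ℂ) ∈ 𝔪') ∧
      g.IsNewAt q'

end Fermat.Agent.H63.LR
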